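import Fermat.Agent.S15.Mod.Cen.Defs
import Fermat.Agent.S15.Red.Iface

/-!
# S15 / MOD / CEN, concrete layer: `BaseRel` for the three base functions `j`, `h₃`, `h₂`
-/

set_option autoImplicit false

noncomputable section

namespace Fermat.Agent.S15.Mod.Cen

open AlgebraicCurve ModularCurve Fermat.Agent.GR Fermat.Agent.GR.E Fermat.Agent.S17.FF
  Fermat.Agent.GR.S.R Fermat.Agent.GR.S Fermat.Agent.S15.Red
  Fermat.Agent.GR.D.Top Fermat.Agent.Lib
open Fermat.Agent.GR.D hiding Qb

variable {E' : IntermediateField Qb (LaurentSeries Qb)}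

/-- an integer prime to the residue characteristic is a unit of `A`. -/
theorem Conc_int_not_mem_nonunits (A : ValuationSubring Qb) {q : ℕ} (hA : A.LiesOverPrime q)
    (n : ℤ) (hn : IsCoprime n (q : ℤ)) : ((n : ℤ) : Qb) ∉ A.nonunits := by
  intro hmem
  obtain ⟨a, b, hab⟩ := hn
  have hcast : ((a : ℤ) : Qb) * ((n : ℤ) : Qb) + ((b : ℤ) : Qb) * (q : Qb) = 1 := by
    exact_mod_cast congrArg (Int.cast : ℤ → Qb) hab
  have hint : ∀ n : ℤ, (n : Qb) ∈ A := fun n => intCast_mem A n
  have h1 : ((a : ℤ) : Qb) * ((n : ℤ) : Qb) ∈ A.nonunits := R.Dom_nonunits_mul A (hint _) hmem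
  have h2 : ((b : ℤ) : Qb) * (q : Qb) ∈ A.nonunits := R.Dom_nonunits_mul A (hint _) hA
  have h3 := R.Dom_nonunits_add A h1 h2
  rw [hcast] at h3
  exact R.Dom_one_not_mem_nonunits A h3

/-- `BaseRel` from polynomials with integral coefficients. -/
theorem Conc_baseRel_of_int (A : ValuationSubring Qb) (h J : E') (e : ℕ) (he : 0 < e)
    (U V : Polynomial ℤ) (hU0 : U.coeff 0 = 1) (hV0 : ((V.coeff 0 : ℤ) : Qb) ∉ A.nonunits)
    (hJU : J = h * Polynomial.aeval h⁻¹ U) (hJV : J * h ^ e = Polynomial.aeval h V) :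
    BaseRel A h J := by
  refine ⟨⟨U.map (algebraMap ℤ Qb), fun n => ?_, ?_, ?_⟩,
    Or.inr ⟨e, V.map (algebraMap ℤ Qb), he, fun n => ?_, ?_, ?_⟩⟩
  · rw [Polynomial.coeff_map, eq_intCast]
    exact intCast_mem A _
  · rw [Polynomial.coeff_map, hU0, map_one]
  · rw [Polynomial.aeval_map_algebraMap]
    exact hJU
  · rw [Polynomial.coeff_map, eq_intCast]
    exact intCast_mem A _
  · rw [Polynomial.coeff_map, eq_intCast]
    exact hV0
  · rw [Polynomial.aeval_map_algebraMap]
    exact hJV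

theorem Conc_ne_zero_of_coeff (h : E') (hc : (h : LaurentSeries Qb).coeff (-1) = 1) : h ≠ 0 := by
  intro h0
  rw [h0] at hc
  have : ((0 : E') : LaurentSeries Qb).coeff (-1) = 0 := rfl
  rw [this] at hc
  exact zero_ne_one hc

/-- `h = j`: `U = 1`. -/
theorem Conc_baseRel_j (A : ValuationSubring Qb) (h J : E')
    (hh : (h : LaurentSeries Qb) = baseFn Qb (jqModC ℤ)) (hJ : (J : LaurentSeries Qb) = jqModC Qb) :
    BaseRel A h J := by
  have e : h = J := by
    apply Subtype.ext
    rw [hh, hJ]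
    exact S28.coeffMap_jqModC _
  refine ⟨⟨1, fun n => ?_, ?_, ?_⟩, Or.inl e⟩
  · rw [Polynomial.coeff_one]
    split_ifs
    · exact one_mem A
    · exact zero_mem A
  · exact Polynomial.coeff_one_zero
  · rw [map_one, mul_one, e]

/-- `h = h₃`, residue characteristic `2`: `j h³ = (h + 27)(h + 243)³`
(`Haupt.j_mul_h3_cube`, `caseH3_baseFn`), `U = (1 + 27 X)(1 + 243 X)³`, `e = 3`,
`V = (X + 27)(X + 243)³`, `V(0) = 27 · 243³` is odd, hence a unit of `A`. -/
theorem Conc_baseRel_h3 (A : ValuationSubring Qb) (hA : A.LiesOverPrime 2) (h J : E')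
    (hh : (h : LaurentSeries Qb) = baseFn Qb Hauptmodul.h3)
    (hJ : (J : LaurentSeries Qb) = jqModC Qb) : BaseRel A h J := by
  have h0 : h ≠ 0 := by
    apply Conc_ne_zero_of_coeff
    rw [hh, caseH3_baseFn, Haupt.h3_coeff_neg_one]
  have hrel : J * h ^ 3 = (h + 27) * (h + 243) ^ 3 := by
    apply E'.val.injective
    simp only [map_mul, map_pow, map_add, map_ofNat]
    change (J : LaurentSeries Qb) * (h : LaurentSeries Qb) ^ 3 =
      ((h : LaurentSeries Qb) + 27) * ((h : LaurentSeries Qb) + 243) ^ 3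
    rw [hh, hJ, caseH3_baseFn]
    exact Haupt.j_mul_h3_cube Qb
  refine Conc_baseRel_of_int A h J 3 (by norm_num)
    ((1 + 27 * Polynomial.X) * (1 + 243 * Polynomial.X) ^ 3)
    ((Polynomial.X + 27) * (Polynomial.X + 243) ^ 3) ?_ ?_ ?_ ?_
  · rw [Polynomial.coeff_zero_eq_eval_zero]
    simp
  · rw [Polynomial.coeff_zero_eq_eval_zero]
    refine Conc_int_not_mem_nonunits A hA _ ?_
    simp only [Polynomial.eval_mul, Polynomial.eval_add, Polynomial.eval_X, Polynomial.eval_pow,
      Polynomial.eval_ofNat]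
    rw [Int.isCoprime_iff_gcd_eq_one]
    decide
  · simp only [map_mul, map_add, map_one, map_pow, Polynomial.aeval_X, map_ofNat]
    field_simp
    linear_combination hrel
  · simp only [map_mul, map_add, map_pow, Polynomial.aeval_X, map_ofNat]
    exact hrel

/-- `h = h₂`, residue characteristic `3`: `j h² = (h + 256)³`
(`Haupt.j_mul_h2_sq`, `CaseH2_baseFn`), `U = (1 + 256 X)³`, `e = 2`, `V = (X + 256)³`,
`V(0) = 256³` is prime to `3`, hence a unit of `A`. -/
theorem Conc_baseRel_h2 (A : ValuationSubring Qb) (hA : A.LiesOverPrime 3) (h J : E')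
    (hh : (h : LaurentSeries Qb) = baseFn Qb Hauptmodul.h2)
    (hJ : (J : LaurentSeries Qb) = jqModC Qb) : BaseRel A h J := by
  have h0 : h ≠ 0 := by
    apply Conc_ne_zero_of_coeff
    rw [hh, CaseH2_baseFn, Haupt.h2_coeff_neg_one]
  have hrel : J * h ^ 2 = (h + 256) ^ 3 := by
    apply E'.val.injective
    simp only [map_mul, map_pow, map_add, map_ofNat]
    change (J : LaurentSeries Qb) * (h : LaurentSeries Qb) ^ 2 = ((h : LaurentSeries Qb) + 256) ^ 3
    rw [hh, hJ, CaseH2_baseFn]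
    exact Haupt.j_mul_h2_sq Qb
  refine Conc_baseRel_of_int A h J 2 (by norm_num)
    ((1 + 256 * Polynomial.X) ^ 3) ((Polynomial.X + 256) ^ 3) ?_ ?_ ?_ ?_
  · rw [Polynomial.coeff_zero_eq_eval_zero]
    simp
  · rw [Polynomial.coeff_zero_eq_eval_zero]
    refine Conc_int_not_mem_nonunits A hA _ ?_
    simp only [Polynomial.eval_add, Polynomial.eval_X, Polynomial.eval_pow,
      Polynomial.eval_ofNat]
    rw [Int.isCoprime_iff_gcd_eq_one]
    decide
  · simp only [map_mul, map_add, map_one, map_pow, Polynomial.aeval_X, map_ofNat]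
    field_simp
    linear_combination hrel
  · simp only [map_add, map_pow, Polynomial.aeval_X, map_ofNat]
    exact hrel

/-- all cases. -/
theorem Conc_baseRel {q : ℕ} (hq : q.Prime) (A : ValuationSubring Qb) (hA : A.LiesOverPrime q)
    (h J : E') (hh : (h : LaurentSeries Qb) = baseFn Qb (baseH q))
    (hJ : (J : LaurentSeries Qb) = jqModC Qb) : BaseRel A h J := by
  unfold baseH at hh
  split_ifs at hh with h2 h3
  · subst h2
    exact Conc_baseRel_h3 A hA h J hh hJ
  · subst h3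
    exact Conc_baseRel_h2 A hA h J hh hJ
  · exact Conc_baseRel_j A h J hh hJ

end Fermat.Agent.S15.Mod.Cen
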