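import Fermat.Agent.S15.Mod.Cen.Defs
import Fermat.Agent.S15.Red.Tools
import Fermat.Agent.GR.S.R.NU

/-!
# S15 / MOD / CEN, concrete layer: `BaseRel` for the base function `Red.hb N q` (`= j, h₂, h₃`)
-/

set_option autoImplicit false
set_option synthInstance.maxHeartbeats 400000

noncomputable section

namespace Fermat.Agent.S15.Mod.Cen

open AlgebraicCurve ModularCurve Fermat.Agent.GR Fermat.Agent.GR.E Fermat.Agent.S17.FF
  Fermat.Agent.GR.S.R Fermat.Agent.GR.S Fermat.Agent.S15.Red Fermat.Agent.GR.D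
  Fermat.Agent.GR.D.Top

local notation "𝔽" => modularFunctionFieldBar

section abstract

variable {Ω F' : Type} [Field Ω] [Field F'] [Algebra Ω F']

theorem ConcBase_of_eq (A : ValuationSubring Ω) {h J : F'} (hJ : h = J) : BaseRel A h J := by
  refine ⟨⟨1, fun n => ?_, Polynomial.coeff_one_zero, ?_⟩, Or.inl hJ⟩
  · rw [Polynomial.coeff_one]
    split_ifs
    · exact one_mem A
    · exact zero_mem A
  · rw [map_one, mul_one, hJ]

theorem ConcBase_of_int (A : ValuationSubring Ω) {h J : F'} (e : ℕ) (he : 0 < e)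
    (Uz Vz : Polynomial ℤ) (hU0 : Uz.coeff 0 = 1) (hV0 : ((Vz.coeff 0 : ℤ) : Ω) ∉ A.nonunits)
    (hU : J = h * Polynomial.aeval h⁻¹ Uz) (hV : J * h ^ e = Polynomial.aeval h Vz) :
    BaseRel A h J := by
  refine ⟨⟨Uz.map (algebraMap ℤ Ω), fun n => ?_, ?_, ?_⟩,
    Or.inr ⟨e, Vz.map (algebraMap ℤ Ω), he, fun n => ?_, ?_, ?_⟩⟩
  · rw [Polynomial.coeff_map]
    exact intCast_mem A _
  · rw [Polynomial.coeff_map, hU0, map_one]
  · rw [Polynomial.aeval_map_algebraMap]
    exact hU
  · rw [Polynomial.coeff_map]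
    exact intCast_mem A _
  · rw [Polynomial.coeff_map]
    exact hV0
  · rw [Polynomial.aeval_map_algebraMap]
    exact hV

theorem ConcBase_two (A : ValuationSubring Ω) {h J : F'} (h0 : h ≠ 0)
    (hrel : J * h ^ 2 = (h + 256) ^ 3) (hu : ((16777216 : ℤ) : Ω) ∉ A.nonunits) :
    BaseRel A h J := by
  refine ConcBase_of_int A 2 two_pos ((1 + 256 * Polynomial.X) ^ 3) ((Polynomial.X + 256) ^ 3)
    ?_ ?_ ?_ ?_
  · rw [Polynomial.coeff_zero_eq_eval_zero]
    simp
  · rw [Polynomial.coeff_zero_eq_eval_zero]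
    have : Polynomial.eval (0 : ℤ) ((Polynomial.X + 256) ^ 3) = 16777216 := by
      simp
    rw [this]
    exact hu
  · have e1 : Polynomial.aeval h⁻¹ ((1 + 256 * Polynomial.X) ^ 3 : Polynomial ℤ) =
        (1 + 256 * h⁻¹) ^ 3 := by
      simp [map_ofNat]
    rw [e1]
    have e2 : J = (h + 256) ^ 3 / h ^ 2 := by
      rw [eq_div_iff (pow_ne_zero 2 h0)]
      exact hrel
    rw [e2]
    field_simp
  · have e1 : Polynomial.aeval h ((Polynomial.X + 256) ^ 3 : Polynomial ℤ) = (h + 256) ^ 3 := by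
      simp [map_ofNat]
    rw [e1]
    exact hrel

theorem ConcBase_three (A : ValuationSubring Ω) {h J : F'} (h0 : h ≠ 0)
    (hrel : J * h ^ 3 = (h + 27) * (h + 243) ^ 3) (hu : ((387420489 : ℤ) : Ω) ∉ A.nonunits) :
    BaseRel A h J := by
  refine ConcBase_of_int A 3 three_pos
    ((1 + 27 * Polynomial.X) * (1 + 243 * Polynomial.X) ^ 3)
    ((Polynomial.X + 27) * (Polynomial.X + 243) ^ 3) ?_ ?_ ?_ ?_
  · rw [Polynomial.coeff_zero_eq_eval_zero]
    simp
  · rw [Polynomial.coeff_zero_eq_eval_zero]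
    have : Polynomial.eval (0 : ℤ) ((Polynomial.X + 27) * (Polynomial.X + 243) ^ 3) =
        387420489 := by
      simp
    rw [this]
    exact hu
  · have e1 : Polynomial.aeval h⁻¹
        ((1 + 27 * Polynomial.X) * (1 + 243 * Polynomial.X) ^ 3 : Polynomial ℤ) =
        (1 + 27 * h⁻¹) * (1 + 243 * h⁻¹) ^ 3 := by
      simp [map_ofNat]
    rw [e1]
    have e2 : J = (h + 27) * (h + 243) ^ 3 / h ^ 3 := by
      rw [eq_div_iff (pow_ne_zero 3 h0)]
      exact hrel
    rw [e2]
    field_simp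
  · have e1 : Polynomial.aeval h
        ((Polynomial.X + 27) * (Polynomial.X + 243) ^ 3 : Polynomial ℤ) =
        (h + 27) * (h + 243) ^ 3 := by
      simp [map_ofNat]
    rw [e1]
    exact hrel

end abstract

/-- an integer prime to the residue characteristic is a unit. -/
theorem ConcBase_int_not_nu {A : ValuationSubring Kb} {q : ℕ} (hA : A.LiesOverPrime q) (n : ℤ)
    (h : IsCoprime n (q : ℤ)) : (n : Kb) ∉ A.nonunits := by
  obtain ⟨a, b, hab⟩ := h
  intro hn
  apply one_not_nu (V := A)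
  have e : (1 : Kb) = (a : Kb) * n + (b : Kb) * (q : Kb) := by exact_mod_cast hab.symm
  rw [e]
  exact nu_add (nu_mul_left (intCast_mem A a) hn) (nu_mul_left (intCast_mem A b) hA)

/-- **`BaseRel` for the base function of the model at `q`.** -/
theorem baseRel_hb (N : ℕ) [NeZero N] {q : ℕ} (hq : q.Prime) (hqN : ¬ q ∣ N)
    (A : ValuationSubring Kb) (hA : A.LiesOverPrime q) (J : 𝔽 (lvl N q))
    (hJ : (J : LaurentSeries Kb) = jqModC Kb) : BaseRel A (hb N q) J := by
  have hcoe := coe_hb N hq hqN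
  obtain ⟨𝒪, P⟩ := exists_gaussPack N hq hqN A hA
  have h0 := P.h0
  by_cases h2 : q = 2
  · have hbH : baseH q = Lib.Hauptmodul.h3 := by
      unfold baseH
      rw [if_pos h2]
    rw [hbH, caseH3_baseFn] at hcoe
    apply ConcBase_three A h0
    · apply Subtype.ext
      have := Haupt.j_mul_h3_cube Kb
      rw [← hcoe, ← hJ] at this
      show (J : LaurentSeries Kb) * (hb N q : LaurentSeries Kb) ^ 3 =
        ((hb N q : LaurentSeries Kb) + 27) * ((hb N q : LaurentSeries Kb) + 243) ^ 3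
      exact this
    · apply ConcBase_int_not_nu hA
      rw [h2]
      norm_num
  by_cases h3 : q = 3
  · have hbH : baseH q = Lib.Hauptmodul.h2 := by
      unfold baseH
      rw [if_neg h2, if_pos h3]
    rw [hbH, CaseH2_baseFn] at hcoe
    apply ConcBase_two A h0
    · apply Subtype.ext
      have := Haupt.j_mul_h2_sq Kb
      rw [← hcoe, ← hJ] at this
      show (J : LaurentSeries Kb) * (hb N q : LaurentSeries Kb) ^ 2 =
        ((hb N q : LaurentSeries Kb) + 256) ^ 3
      exact this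
    · apply ConcBase_int_not_nu hA
      rw [h3]
      norm_num
  · have hbH : baseH q = jqModC ℤ := by
      unfold baseH
      rw [if_neg h2, if_neg h3]
    rw [hbH, CaseJ_baseFn] at hcoe
    exact ConcBase_of_eq A (Subtype.ext (hcoe.trans hJ.symm))

end Fermat.Agent.S15.Mod.Cen
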