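import Fermat.Agent.S15.Mod.Cen.Defs
import Fermat.Agent.S15.Cusp.Defs
import Fermat.Agent.S15.Cusp.OneAdd

/-!
# S15 / MOD / CEN, concrete layer: `CData` from `Cusp.CuspData`
-/

set_option autoImplicit false
set_option synthInstance.maxHeartbeats 400000

noncomputable section

namespace Fermat.Agent.S15.Mod.Cen

open AlgebraicCurve ModularCurve Fermat.Agent.GR Fermat.Agent.GR.E Fermat.Agent.S17.FF
  Fermat.Agent.GR.S.R Fermat.Agent.GR.S Fermat.Agent.S15.Cusp Fermat.Agent.LP.EIS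

/-- `q j = 1 + 744 q + ..`. -/
theorem ConcCData_isOneAdd_j (k : Type*) [Field k] :
    IsOneAdd ((jqModC k).coeff 0) (HahnSeries.single (1 : ℤ) (1 : k) * jqModC k) := by
  refine ⟨fun n hn => ?_, ?_, ?_⟩
  · rw [HahnSeries.coeff_single_mul, one_mul]
    apply HahnSeries.coeff_eq_zero_of_lt_order
    rw [C.qp_order_jqModC]
    omega
  · rw [HahnSeries.coeff_single_mul, one_mul, zero_sub, coeff_jqModC_neg_one]
  · rw [HahnSeries.coeff_single_mul, one_mul, sub_self]

/-- `Δ(q)/Δ(q^p) / j^(p-1) = 1 + O(q)`. -/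
theorem ConcCData_isOneAdd (k : Type*) [Field k] (p : ℕ) [NeZero p] (hp : 2 ≤ p) :
    ∃ c : k, IsOneAdd c (dS k p / jqModC k ^ (p - 1)) := by
  have h1 := (isOneAdd_ratio k p hp).pow 24
  have h2 := ((ConcCData_isOneAdd_j k).pow (p - 1)).inv
  have h3 := h1.mul h2
  have hS : HahnSeries.single (1 - (p : ℤ)) (1 : k) * HahnSeries.single (1 : ℤ) (1 : k) ^ (p - 1)
      = 1 := by
    rw [HahnSeries.single_pow, HahnSeries.single_mul_single, one_pow, one_mul]
    have : (1 - (p : ℤ)) + (p - 1 : ℕ) • (1 : ℤ) = 0 := by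
      rw [nsmul_eq_mul, mul_one, Nat.cast_sub (by omega : 1 ≤ p)]
      push_cast
      ring
    rw [this]
    rfl
  have hS0 : HahnSeries.single (1 : ℤ) (1 : k) ≠ 0 := HahnSeries.single_ne_zero one_ne_zero
  have hj0 : jqModC k ≠ 0 := jqModC_ne_zero_of_nontrivial k
  have e : dS k p / jqModC k ^ (p - 1) = (etaL k / qExpand k p (etaL k)) ^ 24 *
      ((HahnSeries.single (1 : ℤ) (1 : k) * jqModC k) ^ (p - 1))⁻¹ := by
    rw [dS_eq_single_mul, mul_pow, div_eq_mul_inv, mul_inv]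
    have hS' : HahnSeries.single (1 - (p : ℤ)) (1 : k) =
        (HahnSeries.single (1 : ℤ) (1 : k) ^ (p - 1))⁻¹ := eq_inv_of_mul_eq_one_left hS
    rw [hS']
    ring
  rw [e]
  exact ⟨_, h3⟩

theorem ConcCData_order_sub_one {k : Type*} [Field k] {c : k} {f : LaurentSeries k}
    (hf : IsOneAdd c f) : f = 1 ∨ 0 < (f - 1).order := by
  by_cases h : f = 1
  · exact Or.inl h
  right
  have h0 : f - 1 ≠ 0 := sub_ne_zero.2 h
  by_contra hcon
  rw [not_lt] at hcon
  apply h0
  apply HahnSeries.coeff_order_eq_zero.mp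
  rw [HahnSeries.coeff_sub, HahnSeries.coeff_one]
  rcases lt_or_eq_of_le hcon with h1 | h1
  · rw [hf.1 _ h1, if_neg h1.ne, sub_zero]
  · rw [h1, hf.2.1, if_pos rfl, sub_self]

/-- **`CData` from `CuspData`.** -/
theorem cData_of_cuspData {p : ℕ} [NeZero p] (hp : 2 ≤ p)
    {E : IntermediateField Kb (LaurentSeries Kb)} [IsFF Kb E] (C : CuspData p E) :
    CData p C.j C.g C.inf C.zero where
  ne := C.zero_ne_inf
  pole := C.eq_of_ord_j_neg
  inf_j := by rw [C.ord_inf, C.coe_j, GR.C.qp_order_jqModC]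
  zero_j := C.ord_j_zero
  inf_g := C.ord_g_inf
  zero_g := C.ord_g_zero
  unit_g := C.ord_g_eq_zero
  val_inf := by
    obtain ⟨c, hc⟩ := ConcCData_isOneAdd Kb p hp
    have hcoe : ((C.g / C.j ^ (p - 1) : E) : LaurentSeries Kb) = dS Kb p / jqModC Kb ^ (p - 1) := by
      rw [← C.coe_g, ← C.coe_j]
      rfl
    have h0 : 0 ≤ C.inf.ord (C.g / C.j ^ (p - 1)) := by
      rw [C.ord_inf, hcoe, OneAdd_order Kb hc]
    rw [val_eq_iff C.inf h0, map_one]
    rcases ConcCData_order_sub_one hc with h | h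
    · left
      apply Subtype.ext
      rw [hcoe, h]
      rfl
    · right
      rw [C.ord_inf]
      have : ((C.g / C.j ^ (p - 1) - 1 : E) : LaurentSeries Kb) =
          dS Kb p / jqModC Kb ^ (p - 1) - 1 := by
        rw [← hcoe]
        rfl
      rw [this]
      exact h

end Fermat.Agent.S15.Mod.Cen
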