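import Fermat.Agent.S15.Mod.Cen.Conc.Setting
import Fermat.Agent.S15.Mod.Cen.Main
import Fermat.Agent.S15.Cusp.Class

/-!
# S15 / MOD / CEN, concrete layer: export in terms of helper77's `K1q`
-/

set_option autoImplicit false
set_option synthInstance.maxHeartbeats 400000

noncomputable section

namespace Fermat.Agent.S15.Mod.Cen

open AlgebraicCurve ModularCurve Fermat.Agent.GR Fermat.Agent.S17.FF
  Fermat.Agent.GR.S.R Fermat.Agent.GR.S Fermat.Agent.S15.Red Fermat.Agent.S15.Cusp
open Fermat.Agent.GR.E hiding Qb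

variable {p : ℕ} [NeZero p]

/-- the divisor `(x) - (y)`. -/
def ptDiv (x y : Place Qb (modularFunctionFieldBar p)) :
    Divisor.degZero (K := Qb) (F := modularFunctionFieldBar p) :=
  ⟨Finsupp.single x 1 - Finsupp.single y 1, by
    rw [Divisor.mem_degZero, map_sub, Divisor.degree_single, Divisor.degree_single,
      deg_eq_one', deg_eq_one', sub_self]⟩

/-- the class `[(x) - (y)]`. -/
def ptCls (x y : Place Qb (modularFunctionFieldBar p)) : JZero p := Pic0.mk (ptDiv x y)

theorem ptCls_add (x y z : Place Qb (modularFunctionFieldBar p)) :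
    ptCls x y + ptCls y z = ptCls x z := by
  show Pic0.mk (ptDiv x y) + Pic0.mk (ptDiv y z) = Pic0.mk (ptDiv x z)
  have : ptDiv x y + ptDiv y z = ptDiv x z := by
    apply Subtype.ext
    show (Finsupp.single x 1 - Finsupp.single y 1 : Divisor Qb (modularFunctionFieldBar p)) +
      (Finsupp.single y 1 - Finsupp.single z 1) = Finsupp.single x 1 - Finsupp.single z 1
    abel
  rw [← this]
  rfl

theorem ptCls_zero_inf (C : CuspData p (modularFunctionFieldBar p)) :
    ptCls C.zero C.inf = C.c₀ := rfl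

/-- Galois action. (`galois_smul_pic0_def` / as in `Cusp.CuspData.smul_c₀_eq`.) -/
theorem smul_ptCls (σ : GQ) (x y : Place Qb (modularFunctionFieldBar p)) :
    σ • ptCls x y = ptCls (gq p σ • x) (gq p σ • y) := by
  show gq p σ • Pic0.mk (ptDiv x y) = Pic0.mk (ptDiv (gq p σ • x) (gq p σ • y))
  rw [SemilinearAut.pic0_smul_mk]
  refine congrArg Pic0.mk (Subtype.ext ?_)
  rw [SemilinearAut.coe_degZeroSMulHom]
  show gq p σ • (Finsupp.single x 1 - Finsupp.single y 1 : Divisor Qb (modularFunctionFieldBar p)) = _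
  rw [smul_sub, SemilinearAut.smul_single, SemilinearAut.smul_single]
  rfl

theorem Conc_mem_K1q {q : ℕ} (A : ValuationSubring Qb) (x y : Place Qb (modularFunctionFieldBar p))
    (h : RedA (inclBar (dvd_lvl p q)) (red A (hb p q)) (Finsupp.single x 1) =
      RedA (inclBar (dvd_lvl p q)) (red A (hb p q)) (Finsupp.single y 1)) :
    ptCls x y ∈ K1q p q A := by
  refine (mem_K1_iff _ _ _).mpr ⟨ptDiv x y, ?_, rfl⟩
  show RedA (inclBar (dvd_lvl p q)) (red A (hb p q)) (Finsupp.single x 1 - Finsupp.single y 1) = 0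
  rw [map_sub, h, sub_self]

/-- **CEN at `0`.** -/
theorem mem_K1q_zero (hp : p.Prime) {q : ℕ} (hq : q.Prime) (hqp : q ≠ p)
    (A : ValuationSubring Qb) (hA : A.LiesOverPrime q)
    (C : CuspData p (modularFunctionFieldBar p)) {x : Place Qb (modularFunctionFieldBar p)}
    (hx : 0 ≤ x.ord C.j) (hv : val x C.j ∉ A) (hg : val x (C.j ^ (p - 1) / C.g) ∉ A) :
    ptCls x C.zero ∈ K1q p q A := by
  obtain ⟨𝒪, S⟩ := Conc_setting_bar hp hq hqp A hA C
  exact Conc_mem_K1q A x C.zero (S.cen_zero hx hv hg)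

/-- **CEN at `∞`.** -/
theorem mem_K1q_inf (hp : p.Prime) {q : ℕ} (hq : q.Prime) (hqp : q ≠ p)
    (A : ValuationSubring Qb) (hA : A.LiesOverPrime q)
    (C : CuspData p (modularFunctionFieldBar p)) {x : Place Qb (modularFunctionFieldBar p)}
    (hx : 0 ≤ x.ord C.j) (hv : val x C.j ∉ A) (hg : val x C.g ∉ A) :
    ptCls x C.inf ∈ K1q p q A := by
  obtain ⟨𝒪, S⟩ := Conc_setting_bar hp hq hqp A hA C
  exact Conc_mem_K1q A x C.inf (S.cen_inf hx hv hg)

/-- **UNIQ.** -/
theorem place_unique (hp : p.Prime) {q : ℕ} (hq : q.Prime) (hqp : q ≠ p)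
    (A : ValuationSubring Qb) (hA : A.LiesOverPrime q)
    (C : CuspData p (modularFunctionFieldBar p)) {x x' : Place Qb (modularFunctionFieldBar p)}
    (hx : 0 ≤ x.ord C.j) (hx' : 0 ≤ x'.ord C.j) (hv : val x C.j ∉ A)
    (hxx' : val x' C.j = val x C.j) (hg : val x C.g ∉ A) (hg' : val x' C.g ∉ A) : x = x' := by
  obtain ⟨𝒪, S⟩ := Conc_setting_bar hp hq hqp A hA C
  exact S.uniq hx hx' hv hxx' hg hg'

/-- **FIX.** a place with rational values of `j` and `g`, reducing to `∞` at some `A`, is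
`G_ℚ`-stable.  (`val_smul`, `SemilinearAut.ord_smul`, `gq p σ • C.j = C.j`, `gq p σ • C.g = C.g` by
`coe_gq_smul` and `gal σ (jqModC Qb) = jqModC Qb`, `gal σ (dS Qb p) = dS Qb p` [`gal = coeffMap`,
`coeffMap_jqModC`, `LP.EIS.coeffMap_dS`]; `baseAut (gq p σ) = σ`: `GR.S.baseAut_eq_of_gal`.) -/
theorem smul_place_eq (hp : p.Prime) {q : ℕ} (hq : q.Prime) (hqp : q ≠ p)
    (A : ValuationSubring Qb) (hA : A.LiesOverPrime q)
    (C : CuspData p (modularFunctionFieldBar p)) {x : Place Qb (modularFunctionFieldBar p)}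
    (hx : 0 ≤ x.ord C.j) (hv : val x C.j ∉ A) (hg : val x C.g ∉ A) (σ : GQ)
    (hσj : σ (val x C.j) = val x C.j) (hσg : σ (val x C.g) = val x C.g) : gq p σ • x = x := by
  have ej : gq p σ • C.j = C.j := by
    apply Subtype.ext
    rw [coe_gq_smul, C.coe_j]
    exact coeffMap_jqModC _
  have eg : gq p σ • C.g = C.g := by
    apply Subtype.ext
    rw [coe_gq_smul, C.coe_g]
    exact LP.EIS.coeffMap_dS _ p
  have hb : ∀ a : Qb, SemilinearAut.baseAut (gq p σ) a = σ a := by
    intro a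
    have h1 := coe_gq_smul p σ (algebraMap Qb (modularFunctionFieldBar p) a)
    rw [SemilinearAut.smul_algebraMap, C_eq_algebraMap_bar, C_eq_algebraMap_bar] at h1
    have h2 := congrArg (fun f : LaurentSeries Qb => f.coeff 0) h1
    simpa [gal_coeff] using h2
  have h1 : (gq p σ • x).ord C.j = x.ord C.j := by
    conv_lhs => rw [← ej]
    exact SemilinearAut.ord_smul _ _ _
  have h2 : val (gq p σ • x) C.j = val x C.j := by
    conv_lhs => rw [← ej]
    rw [val_smul, hb, hσj]
  have h3 : val (gq p σ • x) C.g = val x C.g := by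
    conv_lhs => rw [← eg]
    rw [val_smul, hb, hσg]
  exact (place_unique hp hq hqp A hA C hx (by rw [h1]; exact hx) hv h2 hg (by rw [h3]; exact hg)).symm

end Fermat.Agent.S15.Mod.Cen
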