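import Fermat.Agent.S15.Mod.Cen.Conc.CData
import Fermat.Agent.S15.Mod.Cen.Conc.Base
import Fermat.Agent.LP.EIS.DUnitPrim

/-!
# S15 / MOD / CEN, concrete layer: the `Setting` at a prime `q ≠ p`
-/

set_option autoImplicit false
set_option synthInstance.maxHeartbeats 400000

noncomputable section

namespace Fermat.Agent.S15.Mod.Cen

open AlgebraicCurve ModularCurve Fermat.Agent.GR Fermat.Agent.S17.FF
  Fermat.Agent.GR.S.R Fermat.Agent.GR.S Fermat.Agent.S15.Red Fermat.Agent.S15.Cusp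
  Fermat.Agent.LP.EIS
open Fermat.Agent.GR.E hiding Qb

/-- `j` is primitive at every `A`. -/
theorem Conc_isPrim_j (A : ValuationSubring Qb) : IsPrim A (jqModC Qb) := by
  refine ⟨fun n => ?_, -1, ?_⟩
  · rw [← coeffMap_jqModC (Int.castRingHom Qb), coeffMap_coeff]
    exact intCast_mem A _
  · rw [coeff_jqModC_neg_one]
    exact Dom_one_not_mem_nonunits A

variable {p : ℕ} [NeZero p]

/-- THE SETTING. -/
theorem Conc_setting_bar (hp : p.Prime) {q : ℕ} (hq : q.Prime) (hqp : q ≠ p)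
    (A : ValuationSubring Qb) (hA : A.LiesOverPrime q)
    (C : CuspData p (modularFunctionFieldBar p)) :
    ∃ 𝒪 : ValuationSubring (modularFunctionFieldBar (lvl p q)),
      Setting A 𝒪 (inclBar (dvd_lvl p q)) (hb p q) p C.j C.g C.inf C.zero := by
  have hqN : ¬ q ∣ p := fun h => hqp ((Nat.prime_dvd_prime_iff_eq hq hp).1 h)
  obtain ⟨𝒪, P⟩ := exists_gaussPack p hq hqN A hA
  have hj : ((inclBar (dvd_lvl p q) C.j : modularFunctionFieldBar (lvl p q)) :
      LaurentSeries Qb) = jqModC Qb := by rw [coe_inclBar, C.coe_j]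
  have hg : ((inclBar (dvd_lvl p q) C.g : modularFunctionFieldBar (lvl p q)) :
      LaurentSeries Qb) = dS Qb p := by rw [coe_inclBar, C.coe_g]
  exact ⟨𝒪, hp.two_le, P.G, P.h0, P.C0, P.C1, cData_of_cuspData hp.two_le C,
    baseRel_hb p hq hqN A hA _ hj,
    P.mem_of_isInt (by rw [hg]; exact isInt_dS A p),
    P.inv_mem_of_isPrim (by rw [hg]; exact isPrim_dS A p),
    P.mem_of_isInt (by rw [hj]; exact (Conc_isPrim_j A).1),
    P.inv_mem_of_isPrim (by rw [hj]; exact Conc_isPrim_j A)⟩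

end Fermat.Agent.S15.Mod.Cen
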